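/-
S56, brick TW / junction with brick G: the frozen hypotheses of S56 give the hypotheses `RhoHyp`
of the group-theoretic exits of `S56/G/Bricks.lean`.

* `rhoGL ρbar b0 : G_ℚ →* GL₂(k)` : the matrices of `ρbar` in a basis `b0`;
* `Hn p n` : the subgroup of `G_ℚ` fixing the `p ^ (n + 1)`-th roots of unity;
* `rhoHyp_of_hyp` : `Contract.Hyp 𝒪 p ρbar S Smin → G.RhoHyp p (rhoGL ρbar b0) (Hn p n)`;
* `exists_ne_of_trace_sq_ne_four` : an element of `Hn p n` with `tr² ≠ 4` has two distinct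
  eigenvalues in `k` (the hypothesis of `TW/Cheb.lean`).
-/
import Mathlib
import Fermat.Agent.S56.Contract
import Fermat.Agent.S56.G.Bricks
import Fermat.Agent.S53.MatRep
import Fermat.Agent.Lib.CycloChar
import Fermat.Agent.Lib.Frobenius
import Fermat.Agent.S48.Dens.Basic

set_option autoImplicit false

namespace Fermat.Agent.S56.TW.RhoHyp

open Polynomial IsLocalRing TensorProduct Matrix
open Fermat.Agent.S56.Contract

local notation "Qb" => AlgebraicClosure ℚ
local notation "GQ" => (AlgebraicClosure ℚ ≃ₐ[ℚ] AlgebraicClosure ℚ)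

/-! ### The matrix form of `ρbar` and the subgroup `Hn` -/

section Defs

variable {k : Type} [Field k]

/-- The matrices of `ρbar` in the basis `b0`, as a homomorphism to `GL₂(k)`. -/
noncomputable def rhoGL (ρbar : ResidualGaloisRep k) (b0 : Module.Basis (Fin 2) k ρbar.V) :
    GQ →* GL (Fin 2) k :=
  (Fermat.Agent.S53.MatRep.matOfBasisRes ρbar b0).toHomUnits

theorem rhoGL_val (ρbar : ResidualGaloisRep k) (b0 : Module.Basis (Fin 2) k ρbar.V) (σ : GQ) :
    (rhoGL ρbar b0 σ).val = LinearMap.toMatrix b0 b0 (ρbar.ρ σ) := rfl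

theorem rhoGL_inv_val (ρbar : ResidualGaloisRep k) (b0 : Module.Basis (Fin 2) k ρbar.V) (σ : GQ) :
    ((rhoGL ρbar b0 σ)⁻¹ : GL (Fin 2) k).val = LinearMap.toMatrix b0 b0 (ρbar.ρ σ⁻¹) := by
  rw [← map_inv, rhoGL_val]

theorem rhoGL_det (ρbar : ResidualGaloisRep k) (b0 : Module.Basis (Fin 2) k ρbar.V) (σ : GQ) :
    (rhoGL ρbar b0 σ).val.det = LinearMap.det (ρbar.ρ σ) := by
  rw [rhoGL_val, LinearMap.det_toMatrix]

theorem rhoGL_charpoly (ρbar : ResidualGaloisRep k) (b0 : Module.Basis (Fin 2) k ρbar.V)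
    (σ : GQ) : (rhoGL ρbar b0 σ).val.charpoly = LinearMap.charpoly (ρbar.ρ σ) := by
  rw [rhoGL_val, LinearMap.charpoly_toMatrix]

theorem finiteLevel_rhoGL (ρbar : ResidualGaloisRep k) (b0 : Module.Basis (Fin 2) k ρbar.V) :
    GaloisFactorsThroughFiniteLevel (rhoGL ρbar b0) := by
  obtain ⟨L, hL, h⟩ := Fermat.Agent.S53.MatRep.factors_matOfBasisRes ρbar b0
  refine ⟨L, hL, fun σ hσ => ?_⟩
  apply Units.ext
  exact h σ hσ

/-- The subgroup of `G_ℚ` fixing the `p ^ (n + 1)`-th roots of unity. -/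
def Hn (p n : ℕ) : Subgroup GQ where
  carrier := {σ | ∀ z : Qb, z ^ p ^ (n + 1) = 1 → σ z = z}
  mul_mem' := by
    intro a b ha hb z hz
    rw [AlgEquiv.mul_apply, hb z hz, ha z hz]
  one_mem' := fun z _ => rfl
  inv_mem' := by
    intro a ha z hz
    have h1 : a⁻¹ (a z) = z := by
      rw [AlgEquiv.aut_inv, AlgEquiv.symm_apply_apply]
    rw [ha z hz] at h1
    exact h1

theorem mem_Hn_iff (p n : ℕ) (σ : GQ) :
    σ ∈ Hn p n ↔ ∀ z : Qb, z ^ p ^ (n + 1) = 1 → σ z = z := Iff.rfl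

end Defs

/-! ### The easy fields: finiteness, commutators, determinants -/

section Easy

variable {k : Type} [Field k] (p : ℕ) [Fact p.Prime]

theorem finite_range_rhoGL (ρbar : ResidualGaloisRep k) (b0 : Module.Basis (Fin 2) k ρbar.V) :
    (Set.range (rhoGL ρbar b0)).Finite := by
  have h := Fermat.Agent.S48.Dens.finite_range (rhoGL ρbar b0) (finiteLevel_rhoGL ρbar b0)
  have h2 : ((rhoGL ρbar b0).range : Set (GL (Fin 2) k)).Finite := Set.toFinite _
  rwa [MonoidHom.coe_range] at h2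

/-- Two automorphisms commute on the `p ^ (n + 1)`-th roots of unity. -/
theorem comm_root (n : ℕ) (a b : GQ) {z : Qb} (hz : z ^ p ^ (n + 1) = 1) :
    a (b z) = b (a z) := by
  obtain ⟨ζ, hζ⟩ := Fermat.Agent.Lib.CycloChar.exists_primitiveRoot p (n + 1)
  obtain ⟨i, -, rfl⟩ := hζ.eq_pow_of_pow_eq_one hz
  have ha : (a ζ) ^ p ^ (n + 1) = 1 := by rw [← map_pow, hζ.pow_eq_one, map_one]
  have hb : (b ζ) ^ p ^ (n + 1) = 1 := by rw [← map_pow, hζ.pow_eq_one, map_one]
  obtain ⟨ka, -, hka⟩ := hζ.eq_pow_of_pow_eq_one ha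
  obtain ⟨kb, -, hkb⟩ := hζ.eq_pow_of_pow_eq_one hb
  rw [map_pow, map_pow, map_pow, map_pow, ← hkb, ← hka, map_pow, map_pow, ← hkb, ← hka,
    pow_right_comm ζ ka kb]

theorem comm_mem_Hn (n : ℕ) (a b : GQ) : a * b * a⁻¹ * b⁻¹ ∈ Hn p n := by
  intro z hz
  have hw : (a⁻¹ (b⁻¹ z)) ^ p ^ (n + 1) = 1 := by
    rw [← map_pow, ← map_pow, hz, map_one, map_one]
  rw [AlgEquiv.mul_apply, AlgEquiv.mul_apply, AlgEquiv.mul_apply, comm_root p n a b hw,
    AlgEquiv.aut_inv, AlgEquiv.apply_symm_apply, AlgEquiv.aut_inv, AlgEquiv.apply_symm_apply]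

variable {p}

omit [Fact (Nat.Prime p)] in
/-- `p = 0` in `k`. -/
theorem natCast_eq_zero_of_det {ρbar : ResidualGaloisRep k}
    (hdet : (GaloisRepAdic.ofResidualGaloisRep ρbar).DetIsCyclotomic p) : (p : k) = 0 := by
  have h1 := hdet.1
  have h2 : IsLocalRing.maximalIdeal k = ⊥ :=
    IsLocalRing.isField_iff_maximalIdeal_eq.mp (Field.toIsField k)
  rw [h2, Ideal.mem_bot] at h1
  exact h1

omit [Fact (Nat.Prime p)] in
/-- The determinant of `ρbar σ` is the mod `p` cyclotomic character of `σ`. -/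
theorem det_eq_of_root {ρbar : ResidualGaloisRep k}
    (hdet : (GaloisRepAdic.ofResidualGaloisRep ρbar).DetIsCyclotomic p) (σ : GQ) (a : ℕ)
    (ha : ∀ μ : Qb, μ ^ p = 1 → σ μ = μ ^ a) : LinearMap.det (ρbar.ρ σ) = (a : k) := by
  have h1 := hdet.2 1 σ a (fun μ hμ => ha μ (by rwa [pow_one] at hμ))
  have h2 : (((p ^ 1 : ℕ) : ℕ) : k) = 0 := by
    rw [pow_one]
    exact natCast_eq_zero_of_det hdet
  rw [h2, Ideal.span_singleton_eq_bot.mpr rfl, Ideal.mem_bot, sub_eq_zero] at h1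
  exact h1

omit [Fact (Nat.Prime p)] in
theorem det_eq_one_of_mem_Hn {ρbar : ResidualGaloisRep k}
    (hdet : (GaloisRepAdic.ofResidualGaloisRep ρbar).DetIsCyclotomic p) (n : ℕ) {σ : GQ}
    (hσ : σ ∈ Hn p n) : LinearMap.det (ρbar.ρ σ) = 1 := by
  have h := det_eq_of_root hdet σ 1 (fun μ hμ => by
    rw [pow_one]
    refine hσ μ ?_
    rw [pow_succ', pow_mul, hμ, one_pow])
  rwa [Nat.cast_one] at h

/-- Some determinant is `2` (a Frobenius element at `2`). -/
theorem exists_det_eq_two {ρbar : ResidualGaloisRep k}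
    (hdet : (GaloisRepAdic.ofResidualGaloisRep ρbar).DetIsCyclotomic p) (hp2 : p ≠ 2) :
    ∃ σ : GQ, LinearMap.det (ρbar.ρ σ) = 2 := by
  obtain ⟨A, φ, hA, hφ⟩ := Fermat.Agent.Lib.Frobenius.exists_frobenius Nat.prime_two
  have hcop : Nat.Coprime p 2 := (Nat.coprime_primes (Fact.out : p.Prime) Nat.prime_two).mpr hp2
  refine ⟨φ, ?_⟩
  have h := det_eq_of_root hdet φ 2 (fun μ hμ =>
    Fermat.Agent.Lib.CycloChar.frob_root A hA φ hφ hcop hμ)
  rw [h]
  norm_num

end Easy

/-! ### No stable line -/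

section Irr

variable {k : Type} [Field k]

theorem equivFun_rho (ρbar : ResidualGaloisRep k) (b0 : Module.Basis (Fin 2) k ρbar.V) (σ : GQ)
    (x : ρbar.V) :
    b0.equivFun (ρbar.ρ σ x) = (rhoGL ρbar b0 σ).val *ᵥ b0.equivFun x := by
  rw [rhoGL_val]
  exact (LinearMap.toMatrix_mulVec_repr b0 b0 (ρbar.ρ σ) x).symm

/-- An absolutely irreducible `ρbar` has no stable line over `k`. -/
theorem irr_of_absIrr (ρbar : ResidualGaloisRep k) (habs : ρbar.IsAbsolutelyIrreducible)
    (b0 : Module.Basis (Fin 2) k ρbar.V) (v : Fin 2 → k) (hv : v ≠ 0) :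
    ∃ g : GQ, ∀ a : k, (rhoGL ρbar b0 g).val *ᵥ v ≠ a • v := by
  by_contra hcon
  push Not at hcon
  set w : ρbar.V := b0.equivFun.symm v with hw
  have hw0 : w ≠ 0 := fun h => hv (by
    rw [← LinearEquiv.apply_symm_apply b0.equivFun v, ← hw, h, map_zero])
  have hstab : ∀ g : GQ, ∃ a : k, ρbar.ρ g w = a • w := by
    intro g
    obtain ⟨a, ha⟩ := hcon g
    refine ⟨a, b0.equivFun.injective ?_⟩
    rw [equivFun_rho, map_smul, hw, LinearEquiv.apply_symm_apply, ha]
  let W : Submodule (AlgebraicClosure k) (AlgebraicClosure k ⊗[k] ρbar.V) :=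
    Submodule.span (AlgebraicClosure k) {(1 : AlgebraicClosure k) ⊗ₜ[k] w}
  have hW : ∀ σ : GQ, ∀ x ∈ W, (ρbar.baseChange (AlgebraicClosure k)).ρ σ x ∈ W := by
    intro σ x hx
    obtain ⟨c, rfl⟩ := Submodule.mem_span_singleton.mp hx
    obtain ⟨a, ha⟩ := hstab σ
    show (ρbar.ρ σ).baseChange (AlgebraicClosure k) (c • ((1 : AlgebraicClosure k) ⊗ₜ[k] w)) ∈ W
    rw [map_smul, LinearMap.baseChange_tmul, ha, TensorProduct.tmul_smul,
      ← algebraMap_smul (AlgebraicClosure k) a ((1 : AlgebraicClosure k) ⊗ₜ[k] w)]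
    exact W.smul_mem _ (W.smul_mem _ (Submodule.mem_span_singleton_self _))
  have hne : (1 : AlgebraicClosure k) ⊗ₜ[k] w ≠ 0 := fun h =>
    hw0 ((Module.FaithfullyFlat.one_tmul_eq_zero_iff k ρbar.V (A := AlgebraicClosure k) w).mp h)
  rcases habs W hW with h | h
  · exact hne (Submodule.span_singleton_eq_bot.mp h)
  · have h1 : Module.finrank (AlgebraicClosure k) W = 1 := finrank_span_singleton hne
    rw [h, finrank_top, (ρbar.baseChange (AlgebraicClosure k)).finrank_eq] at h1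
    exact absurd h1 (by norm_num)

end Irr

/-! ### No trace-zero matrix is an eigenvector up to sign of the conjugation action -/

section PM

variable {k : Type} [Field k]

theorem pm_of_hyp (ρbar : ResidualGaloisRep k) (h2 : (2 : k) ≠ 0)
    (habs : ρbar.IsAbsolutelyIrreducible)
    (hTW : ∀ (K : Type) [Field K] [Algebra k K] (G : Subgroup GQ), G.index = 2 →
      ∀ V : Submodule K (ρbar.baseChange K).V,
        (∀ σ ∈ G, ∀ x ∈ V, (ρbar.baseChange K).ρ σ x ∈ V) → V = ⊥ ∨ V = ⊤)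
    (b0 : Module.Basis (Fin 2) k ρbar.V) (Y : Matrix (Fin 2) (Fin 2) k) (hYtr : Y.trace = 0)
    (hY0 : Y ≠ 0) :
    ¬ ∀ g : GQ, (rhoGL ρbar b0 g).val * Y * ((rhoGL ρbar b0 g)⁻¹ : GL (Fin 2) k).val = Y ∨
      (rhoGL ρbar b0 g).val * Y * ((rhoGL ρbar b0 g)⁻¹ : GL (Fin 2) k).val = -Y := by
  intro hall
  -- the endomorphism `y` with matrix `Y`
  let y : Module.End k ρbar.V := Matrix.toLin b0 b0 Y
  have hy : LinearMap.toMatrix b0 b0 y = Y := LinearMap.toMatrix_toLin b0 b0 Y
  have hy0 : y ≠ 0 := by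
    intro h
    apply hY0
    rw [← hy, h, map_zero]
  -- every `ρ g` commutes or anticommutes with `y`
  have hca : ∀ g : GQ, ρbar.ρ g * y = y * ρbar.ρ g ∨ ρbar.ρ g * y = -(y * ρbar.ρ g) := by
    intro g
    have hinv : ((rhoGL ρbar b0 g)⁻¹ : GL (Fin 2) k).val * (rhoGL ρbar b0 g).val = 1 := by
      rw [← Units.val_mul, inv_mul_cancel, Units.val_one]
    have hstep : (rhoGL ρbar b0 g).val * Y =
        (rhoGL ρbar b0 g).val * Y * ((rhoGL ρbar b0 g)⁻¹ : GL (Fin 2) k).val *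
          (rhoGL ρbar b0 g).val := by
      rw [mul_assoc ((rhoGL ρbar b0 g).val * Y), hinv, mul_one]
    rcases hall g with h | h
    · left
      apply (LinearMap.toMatrix b0 b0).injective
      rw [LinearMap.toMatrix_mul, LinearMap.toMatrix_mul, hy, ← rhoGL_val, hstep, h]
    · right
      apply (LinearMap.toMatrix b0 b0).injective
      rw [map_neg, LinearMap.toMatrix_mul, LinearMap.toMatrix_mul, hy, ← rhoGL_val, hstep, h,
        neg_mul]
  -- the commuting subgroup
  let GY : Subgroup GQ :=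
    { carrier := {g | ρbar.ρ g * y = y * ρbar.ρ g}
      mul_mem' := by
        intro a b ha hb
        show ρbar.ρ (a * b) * y = y * ρbar.ρ (a * b)
        have ha' : ρbar.ρ a * y = y * ρbar.ρ a := ha
        have hb' : ρbar.ρ b * y = y * ρbar.ρ b := hb
        rw [map_mul, mul_assoc, hb', ← mul_assoc, ha', mul_assoc]
      one_mem' := by
        show ρbar.ρ 1 * y = y * ρbar.ρ 1
        rw [map_one, one_mul, mul_one]
      inv_mem' := by
        intro a ha
        show ρbar.ρ a⁻¹ * y = y * ρbar.ρ a⁻¹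
        have ha' : ρbar.ρ a * y = y * ρbar.ρ a := ha
        have h1 : ρbar.ρ a⁻¹ * ρbar.ρ a = 1 := by rw [← map_mul, inv_mul_cancel, map_one]
        have h3 : ρbar.ρ a * ρbar.ρ a⁻¹ = 1 := by rw [← map_mul, mul_inv_cancel, map_one]
        calc ρbar.ρ a⁻¹ * y = ρbar.ρ a⁻¹ * y * (ρbar.ρ a * ρbar.ρ a⁻¹) := by rw [h3, mul_one]
          _ = ρbar.ρ a⁻¹ * (y * ρbar.ρ a) * ρbar.ρ a⁻¹ := by simp only [mul_assoc]
          _ = ρbar.ρ a⁻¹ * (ρbar.ρ a * y) * ρbar.ρ a⁻¹ := by rw [ha']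
          _ = y * ρbar.ρ a⁻¹ := by rw [← mul_assoc, h1, one_mul] }
  have hGY : ∀ g : GQ, g ∈ GY ↔ ρbar.ρ g * y = y * ρbar.ρ g := fun g => Iff.rfl
  -- an eigenspace of `y` over the algebraic closure
  have hfr : Module.finrank (AlgebraicClosure k) (AlgebraicClosure k ⊗[k] ρbar.V) = 2 :=
    (ρbar.baseChange (AlgebraicClosure k)).finrank_eq
  have : Nontrivial (AlgebraicClosure k ⊗[k] ρbar.V) :=
    Module.nontrivial_of_finrank_pos (R := AlgebraicClosure k) (by rw [hfr]; norm_num)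
  obtain ⟨c, hc⟩ := Module.End.exists_eigenvalue (y.baseChange (AlgebraicClosure k))
  let E : Submodule (AlgebraicClosure k) (AlgebraicClosure k ⊗[k] ρbar.V) :=
    Module.End.eigenspace (y.baseChange (AlgebraicClosure k)) c
  have hEbot : E ≠ ⊥ := Module.End.hasEigenvalue_iff.mp hc
  have hEtop : E ≠ ⊤ := by
    intro hE
    have hall' : ∀ x : AlgebraicClosure k ⊗[k] ρbar.V,
        y.baseChange (AlgebraicClosure k) x = c • x := fun x =>
      Module.End.mem_eigenspace_iff.mp (by rw [show Module.End.eigenspace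
        (y.baseChange (AlgebraicClosure k)) c = ⊤ from hE]; exact Submodule.mem_top)
    have heq : y.baseChange (AlgebraicClosure k) =
        c • (1 : Module.End (AlgebraicClosure k) (AlgebraicClosure k ⊗[k] ρbar.V)) := by
      apply LinearMap.ext
      intro x
      rw [hall' x, LinearMap.smul_apply, Module.End.one_apply]
    have htr : LinearMap.trace k ρbar.V y = 0 := by
      rw [LinearMap.trace_eq_matrix_trace k b0 y, hy, hYtr]
    have htr2 := LinearMap.trace_baseChange y (AlgebraicClosure k)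
    rw [heq, map_smul, LinearMap.trace_one, hfr, htr, map_zero, smul_eq_mul] at htr2
    have h2K : ((2 : ℕ) : AlgebraicClosure k) ≠ 0 := by
      rw [Nat.cast_ofNat]
      intro h
      apply h2
      apply (algebraMap k (AlgebraicClosure k)).injective
      rw [map_ofNat, h, map_zero]
    have hc0 : c = 0 := by
      rcases mul_eq_zero.mp htr2 with h | h
      · exact h
      · exact absurd h h2K
    apply hy0
    apply LinearMap.ext
    intro x
    have h4 := hall' ((1 : AlgebraicClosure k) ⊗ₜ[k] x)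
    rw [hc0, zero_smul, LinearMap.baseChange_tmul] at h4
    rw [LinearMap.zero_apply]
    exact (Module.FaithfullyFlat.one_tmul_eq_zero_iff k ρbar.V (A := AlgebraicClosure k) (y x)).mp h4
  have hEstab : ∀ σ ∈ GY, ∀ x ∈ E, (ρbar.baseChange (AlgebraicClosure k)).ρ σ x ∈ E := by
    intro σ hσ x hx
    have hσ' : ρbar.ρ σ * y = y * ρbar.ρ σ := hσ
    have hx' : y.baseChange (AlgebraicClosure k) x = c • x := Module.End.mem_eigenspace_iff.mp hx
    show (ρbar.ρ σ).baseChange (AlgebraicClosure k) x ∈ E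
    refine Module.End.mem_eigenspace_iff.mpr ?_
    have h5 : y.baseChange (AlgebraicClosure k) ((ρbar.ρ σ).baseChange (AlgebraicClosure k) x) =
        (ρbar.ρ σ).baseChange (AlgebraicClosure k) (y.baseChange (AlgebraicClosure k) x) := by
      rw [← Module.End.mul_apply, ← Module.End.mul_apply, ← LinearMap.baseChange_mul,
        ← LinearMap.baseChange_mul, hσ']
    rw [h5, hx', map_smul]
  by_cases hG : ∀ g : GQ, g ∈ GY
  · rcases habs E (fun σ x hx => hEstab σ (hG σ) x hx) with h | h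
    · exact hEbot h
    · exact hEtop h
  · push Not at hG
    obtain ⟨a, ha⟩ := hG
    have haa : ρbar.ρ a * y = -(y * ρbar.ρ a) := by
      rcases hca a with h | h
      · exact absurd ((hGY a).mpr h) ha
      · exact h
    have hidx : GY.index = 2 := by
      refine Subgroup.index_eq_two_iff.mpr ⟨a, fun b => ?_⟩
      by_cases hb : b ∈ GY
      · refine Or.inr ⟨hb, fun hba => hy0 ?_⟩
        have hb' : ρbar.ρ b * y = y * ρbar.ρ b := hb
        have hba' : ρbar.ρ (b * a) * y = y * ρbar.ρ (b * a) := hba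
        have h6 : ρbar.ρ (b * a) * y = -(y * ρbar.ρ (b * a)) := by
          rw [map_mul, mul_assoc, haa, mul_neg, ← mul_assoc, hb', mul_assoc]
        have h7 : (2 : k) • (y * ρbar.ρ (b * a)) = 0 := by
          rw [two_smul]
          nth_rewrite 1 [← hba']
          rw [h6, neg_add_cancel]
        have h8 : y * ρbar.ρ (b * a) = 0 := (smul_eq_zero.mp h7).resolve_left h2
        have h9 : ρbar.ρ (b * a) * ρbar.ρ (b * a)⁻¹ = 1 := by
          rw [← map_mul, mul_inv_cancel, map_one]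
        calc y = y * (ρbar.ρ (b * a) * ρbar.ρ (b * a)⁻¹) := by rw [h9, mul_one]
          _ = 0 := by rw [← mul_assoc, h8, zero_mul]
      · refine Or.inl ⟨?_, hb⟩
        have hbb : ρbar.ρ b * y = -(y * ρbar.ρ b) := by
          rcases hca b with h | h
          · exact absurd ((hGY b).mpr h) hb
          · exact h
        show ρbar.ρ (b * a) * y = y * ρbar.ρ (b * a)
        rw [map_mul, mul_assoc, haa, mul_neg, ← mul_assoc, hbb, neg_mul, neg_neg, mul_assoc]
    rcases hTW (AlgebraicClosure k) GY hidx E hEstab with h | h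
    · exact hEbot h
    · exact hEtop h

end PM

/-! ### The assembly -/

section Main

variable {𝒪 : Type} [CommRing 𝒪] [IsLocalRing 𝒪] {p : ℕ} [Fact p.Prime]
  {ρbar : ResidualGaloisRep (ResidueField 𝒪)} {S Smin : Finset ℕ}

omit [Fact (Nat.Prime p)] in
/-- `p = 0` in the residue field. -/
theorem natCast_eq_zero (h : Hyp 𝒪 p ρbar S Smin) : (p : ResidueField 𝒪) = 0 :=
  natCast_eq_zero_of_det h.hdet

/-- The residue field has characteristic `p`. -/
theorem charP_of_hyp (h : Hyp 𝒪 p ρbar S Smin) : CharP (ResidueField 𝒪) p :=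
  (CharP.charP_iff_prime_eq_zero (Fact.out : p.Prime)).mpr (natCast_eq_zero h)

theorem two_ne_zero_of_hyp (h : Hyp 𝒪 p ρbar S Smin) : (2 : ResidueField 𝒪) ≠ 0 := by
  intro h2
  obtain ⟨m, hm⟩ := (Fact.out : p.Prime).odd_of_ne_two h.hp2
  have h3 := natCast_eq_zero h
  rw [hm] at h3
  push_cast at h3
  rw [h2, zero_mul, zero_add] at h3
  exact one_ne_zero h3

/-- **The frozen hypotheses of S56 give the hypotheses of the exits of brick G.** -/
theorem rhoHyp_of_hyp (h : Hyp 𝒪 p ρbar S Smin)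
    (b0 : Module.Basis (Fin 2) (ResidueField 𝒪) ρbar.V) (n : ℕ) :
    Fermat.Agent.S56.G.RhoHyp p (rhoGL ρbar b0) (Hn p n) where
  fin := finite_range_rhoGL ρbar b0
  split := fun g => by
    obtain ⟨α, β, hg⟩ := h.hsplit g
    exact ⟨α, β, by rw [rhoGL_charpoly]; exact hg⟩
  irr := irr_of_absIrr ρbar h.habs b0
  pm := pm_of_hyp ρbar (two_ne_zero_of_hyp h) h.habs h.hTW b0
  det5 := fun hp5 => by
    obtain ⟨σ, hσ⟩ := exists_det_eq_two h.hdet h.hp2
    refine ⟨σ, ?_⟩
    rw [rhoGL_det, hσ]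
    intro h4
    have h5 : ((5 : ℕ) : ResidueField 𝒪) = 0 := by
      rw [← hp5]
      exact natCast_eq_zero h
    push_cast at h5
    have h1 : (1 : ResidueField 𝒪) = 0 := by linear_combination 2 * h4 - h5
    exact one_ne_zero h1
  comm := comm_mem_Hn p n
  det_one := fun σ hσ => by
    rw [rhoGL_det]
    exact det_eq_one_of_mem_Hn h.hdet n hσ

omit [Fact (Nat.Prime p)] in
/-- An element of `Hn p n` whose matrix has `tr² ≠ 4` has two distinct eigenvalues in the
residue field. -/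
theorem exists_ne_of_trace_sq_ne_four (h : Hyp 𝒪 p ρbar S Smin)
    (b0 : Module.Basis (Fin 2) (ResidueField 𝒪) ρbar.V) (n : ℕ) {σ : GQ} (hσ : σ ∈ Hn p n)
    (htr : (rhoGL ρbar b0 σ).val.trace ^ 2 ≠ 4) :
    ∃ α β : ResidueField 𝒪, α ≠ β ∧
      LinearMap.charpoly (ρbar.ρ σ) = (X - C α) * (X - C β) := by
  obtain ⟨α, β, hg⟩ := h.hsplit σ
  refine ⟨α, β, ?_, hg⟩
  rintro rfl
  apply htr
  have hdet : (rhoGL ρbar b0 σ).val.det = 1 := by
    rw [rhoGL_det]
    exact det_eq_one_of_mem_Hn h.hdet n hσ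
  have h2 := Matrix.charpoly_fin_two (rhoGL ρbar b0 σ).val
  rw [rhoGL_charpoly, hg, hdet] at h2
  have h0 := congrArg (Polynomial.eval (0 : ResidueField 𝒪)) h2
  have h1 := congrArg (Polynomial.eval (1 : ResidueField 𝒪)) h2
  simp only [eval_add, eval_sub, eval_mul, eval_pow, eval_X, eval_C] at h0 h1
  have ht : (rhoGL ρbar b0 σ).val.trace = 2 * α := by linear_combination h1 - h0
  have hα : α ^ 2 = 1 := by linear_combination h0
  rw [ht]
  linear_combination 4 * hα

end Main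

end Fermat.Agent.S56.TW.RhoHyp
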