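/-
S56, brick TW: Taylor-Wiles sets from Chebotarev, in the vocabulary of `S56/Contract.lean`.

* `unramified_of_hyp` : under the frozen hypotheses `Hyp`, `ρbar` is unramified outside `S`.
* `exists_isTWSet` : for elements `σ i` of `G_ℚ` (`i : Fin r`) which are trivial on the
  `p ^ (n + 1)`-th roots of unity and such that `ρbar (σ i)` has two distinct eigenvalues in the
  residue field, there is `qv : Fin r → ℕ` with `IsTWSet p ρbar S n qv` such that some Frobenius
  element `φ` over `qv i` satisfies `f φ = f (σ i)`, `ρbar φ = ρbar (σ i)` or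
  `f φ = (f (σ i))⁻¹`, `ρbar φ = ρbar (σ i)⁻¹`, for any given homomorphism `f` of finite level.
-/
import Mathlib
import Fermat.Agent.S56.Contract
import Fermat.Agent.Lib.Chebotarev.TWPrime

set_option autoImplicit false

namespace Fermat.Agent.S56.TW.Cheb

open Polynomial IsLocalRing
open Fermat.Agent.S56.Contract

local notation "Qb" => AlgebraicClosure ℚ
local notation "GQ" => (AlgebraicClosure ℚ ≃ₐ[ℚ] AlgebraicClosure ℚ)

/-- Under the frozen hypotheses of S56, `ρbar` is unramified at every prime outside `S`. -/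
theorem unramified_of_hyp {𝒪 : Type} [CommRing 𝒪] [IsLocalRing 𝒪] {p : ℕ}
    {ρbar : ResidualGaloisRep (ResidueField 𝒪)} {S Smin : Finset ℕ} (h : Hyp 𝒪 p ρbar S Smin)
    (q : ℕ) (hq : q.Prime) (hqS : q ∉ S) : ρbar.IsUnramifiedAt q := by
  have hqp : q ≠ p := fun e => hqS (h.hSmin (e ▸ h.hpSmin))
  by_contra hcon
  exact hqS (h.hSmin ((h.hmin q hq hqp).mpr hcon))

/-- **Taylor-Wiles sets from Chebotarev.**  Under the frozen hypotheses of S56, for elements
`σ i` of `G_ℚ` which are trivial on the `p ^ (n + 1)`-th roots of unity and have two distinct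
eigenvalues under `ρbar`, there is a Taylor-Wiles set `qv` of level `n` such that some Frobenius
element over `qv i` has the same image as `σ i` or as `(σ i)⁻¹` under `f` and under `ρbar`. -/
theorem exists_isTWSet {𝒪 : Type} [CommRing 𝒪] [IsLocalRing 𝒪] (p : ℕ) [Fact p.Prime]
    {ρbar : ResidualGaloisRep (ResidueField 𝒪)} {S Smin : Finset ℕ} (h : Hyp 𝒪 p ρbar S Smin)
    (n : ℕ) {H : Type} [Group H] (f : GQ →* H) (hf : GaloisFactorsThroughFiniteLevel f)
    {r : ℕ} (σ : Fin r → GQ) (hcyc : ∀ i, ∀ z : Qb, z ^ p ^ (n + 1) = 1 → σ i z = z)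
    (hσ : ∀ i, ∃ α β : ResidueField 𝒪, α ≠ β ∧
      LinearMap.charpoly (ρbar.ρ (σ i)) = (X - C α) * (X - C β)) :
    ∃ qv : Fin r → ℕ, IsTWSet p ρbar S n qv ∧
      ∀ i, ∃ (P : ValuationSubring Qb) (φ : GQ), P.LiesOverPrime (qv i) ∧
        P.IsFrobeniusAt φ (qv i) ∧
        ((f φ = f (σ i) ∧ ρbar.ρ φ = ρbar.ρ (σ i)) ∨
          (f φ = (f (σ i))⁻¹ ∧ ρbar.ρ φ = ρbar.ρ (σ i)⁻¹)) := by
  obtain ⟨qv, h1, h2, h3, h4⟩ :=
    Fermat.Agent.Lib.Chebotarev.TWPrime.exists_tw_family p ρbar S (h.hSmin h.hpSmin)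
      (unramified_of_hyp h) n f hf r σ hcyc hσ
  exact ⟨qv, ⟨h1, h2, h3⟩, h4⟩

end Fermat.Agent.S56.TW.Cheb
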