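/-
S56, brick TW: Taylor-Wiles primes that kill given cohomology classes (cocycle level).

* `exists_isTWSet_kill_core` : `N` an additive group with an action `act` of `G_ℚ` of finite level,
  `c i` (`i : Fin r`) cocycles of finite level, `σ i ∈ Hn p n` with two distinct eigenvalues under
  `ρbar` and `c i (σ i) ∉ (σ i - 1) N₀`.  Then there is a Taylor-Wiles set `qv` of level `n`
  (outside any given finite set `Sbig ⊇ S`) and Frobenius elements `φ i` over `qv i` with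
  `c i (φ i) ∉ (φ i - 1) N₀`.
* `exists_isTWSet_kill` : the same for cocycles `ψ i : G_ℚ → M₂(k)` of the twisted adjoint action
  `G.tw` which are not coboundaries, the `σ i` being supplied by the exit `G.ExitStatement` of
  brick G (through `TW/RhoHyp.lean`).

Proof: the affine maps `x ↦ act σ x + c σ` form a homomorphism of finite level from `G_ℚ` to a
group, the condition `c σ ∈ (σ - 1) N₀` says that the affine map of `σ` has a fixed point in `N₀`,
which is invariant under inversion; then Chebotarev up to inversion (`TW/Cheb.lean`).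
-/
import Mathlib
import Fermat.Agent.S56.TW.Cheb
import Fermat.Agent.S56.TW.RhoHyp
import Fermat.Agent.S56.G.HypAdapter

set_option autoImplicit false

namespace Fermat.Agent.S56.TW.Kill

open Polynomial IsLocalRing Matrix
open Fermat.Agent.S56.Contract Fermat.Agent.S56.TW.RhoHyp

local notation "Qb" => AlgebraicClosure ℚ
local notation "GQ" => (AlgebraicClosure ℚ ≃ₐ[ℚ] AlgebraicClosure ℚ)

/-! ### Finite level of a finite family of homomorphisms -/

theorem finiteLevel_pi {ι : Type} [Finite ι] {H : ι → Type} [∀ i, Group (H i)]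
    (f : ∀ i, GQ →* H i) (hf : ∀ i, GaloisFactorsThroughFiniteLevel (f i)) :
    GaloisFactorsThroughFiniteLevel (MonoidHom.pi f) := by
  choose L hL hφ using hf
  have : ∀ i, FiniteDimensional ℚ (L i) := hL
  refine ⟨⨆ i, L i, IntermediateField.finiteDimensional_iSup_of_finite, fun σ hσ => ?_⟩
  funext i
  exact hφ i σ fun x hx => hσ x (le_iSup L i hx)

/-! ### The affine maps of a cocycle -/

section Affine

variable {N : Type} [AddCommGroup N] (act : GQ → N → N) (hact1 : ∀ x, act 1 x = x)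
  (hactmul : ∀ σ τ x, act (σ * τ) x = act σ (act τ x))
  (hactadd : ∀ σ x y, act σ (x + y) = act σ x + act σ y)
  (c : GQ → N) (hc : ∀ σ τ, c (σ * τ) = c σ + act σ (c τ))

include hact1 hc in
theorem cocycle_one : c 1 = 0 := by
  have h := hc 1 1
  rw [mul_one, hact1] at h
  exact add_eq_left.mp h.symm

include hactadd in
theorem act_zero (σ : GQ) : act σ 0 = 0 := by
  have h := hactadd σ 0 0
  rw [add_zero] at h
  exact add_eq_left.mp h.symm

include hactadd in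
theorem act_neg (σ : GQ) (x : N) : act σ (-x) = -act σ x := by
  have h := hactadd σ (-x) x
  rw [neg_add_cancel, act_zero act hactadd] at h
  exact eq_neg_of_add_eq_zero_left h.symm

/-- The affine maps `x ↦ act σ x + c σ` of a cocycle, as a homomorphism to a monoid. -/
noncomputable def affine : GQ →* Function.End N where
  toFun σ := fun x => act σ x + c σ
  map_one' := by
    funext x
    show act 1 x + c 1 = x
    rw [hact1, cocycle_one act hact1 c hc, add_zero]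
  map_mul' := by
    intro σ τ
    funext x
    show act (σ * τ) x + c (σ * τ) = act σ (act τ x + c τ) + c σ
    rw [hactmul, hc, hactadd]
    abel

/-- The affine maps of a cocycle, as a homomorphism to a group. -/
noncomputable def affineU : GQ →* (Function.End N)ˣ :=
  (affine act hact1 hactmul hactadd c hc).toHomUnits

theorem affineU_apply (σ : GQ) (x : N) :
    (affineU act hact1 hactmul hactadd c hc σ).val x = act σ x + c σ := rfl

theorem finiteLevel_affineU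
    (hactlev : ∃ L : IntermediateField ℚ Qb, FiniteDimensional ℚ L ∧
      ∀ σ : GQ, (∀ x ∈ L, σ x = x) → ∀ m, act σ m = m)
    (hclev : ∃ L : IntermediateField ℚ Qb, FiniteDimensional ℚ L ∧
      ∀ σ : GQ, (∀ x ∈ L, σ x = x) → c σ = 0) :
    GaloisFactorsThroughFiniteLevel (affineU act hact1 hactmul hactadd c hc) := by
  obtain ⟨L₁, hL₁, h₁⟩ := hactlev
  obtain ⟨L₂, hL₂, h₂⟩ := hclev
  refine ⟨L₁ ⊔ L₂, IntermediateField.finiteDimensional_sup L₁ L₂, fun σ hσ => ?_⟩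
  apply Units.ext
  funext x
  show act σ x + c σ = x
  rw [h₁ σ (fun y hy => hσ y ((le_sup_left : L₁ ≤ L₁ ⊔ L₂) hy)) x,
    h₂ σ (fun y hy => hσ y ((le_sup_right : L₂ ≤ L₁ ⊔ L₂) hy)), add_zero]

/-- `c σ ∈ (σ - 1) N₀` iff the affine map of `σ` has a fixed point in `N₀`. -/
theorem exists_sub_iff_exists_fixed (N₀ : AddSubgroup N) (σ : GQ) :
    (∃ m ∈ N₀, c σ = act σ m - m) ↔
      ∃ x ∈ N₀, (affineU act hact1 hactmul hactadd c hc σ).val x = x := by
  constructor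
  · rintro ⟨m, hm, h⟩
    refine ⟨-m, N₀.neg_mem hm, ?_⟩
    rw [affineU_apply, h, act_neg act hactadd]
    abel
  · rintro ⟨x, hx, h⟩
    refine ⟨-x, N₀.neg_mem hx, ?_⟩
    rw [affineU_apply] at h
    rw [act_neg act hactadd]
    have h2 : c σ = x - act σ x := eq_sub_of_add_eq' h
    rw [h2]
    abel

/-- A unit of `Function.End N` and its inverse have the same fixed points. -/
theorem exists_fixed_inv_iff (N₀ : AddSubgroup N) (u : (Function.End N)ˣ) :
    (∃ x ∈ N₀, (u⁻¹ : (Function.End N)ˣ).val x = x) ↔ ∃ x ∈ N₀, u.val x = x := by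
  have key : ∀ v : (Function.End N)ˣ, (∃ x ∈ N₀, v.val x = x) →
      ∃ x ∈ N₀, (v⁻¹ : (Function.End N)ˣ).val x = x := by
    rintro v ⟨x, hx, h⟩
    refine ⟨x, hx, ?_⟩
    have h2 : ((v⁻¹ : (Function.End N)ˣ).val * v.val) x = x := by
      rw [← Units.val_mul, inv_mul_cancel]
      rfl
    have h3 : ((v⁻¹ : (Function.End N)ˣ).val * v.val) x = (v⁻¹ : (Function.End N)ˣ).val (v.val x) :=
      rfl
    rw [h3, h] at h2
    exact h2
  constructor
  · intro h
    have h2 := key u⁻¹ h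
    rwa [inv_inv] at h2
  · exact key u

end Affine

/-! ### The vocabulary-neutral core -/

section Core

variable {𝒪 : Type} [CommRing 𝒪] [IsLocalRing 𝒪] {p : ℕ} [Fact p.Prime]
  {ρbar : ResidualGaloisRep (ResidueField 𝒪)} {S Smin : Finset ℕ}

/-- **Taylor-Wiles primes killing given cocycles, core form.**  `N` is an additive group with an
additive action `act` of `G_ℚ` of finite level, `c i` are cocycles of finite level, and `σ i` are
elements of `Hn p n` with two distinct eigenvalues under `ρbar` such that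
`c i (σ i) ∉ (σ i - 1) N₀`.  Then there is a Taylor-Wiles set `qv` of level `n`, outside the given
finite set `Sbig ⊇ S`, and Frobenius elements `φ` over `qv i` with `ρbar φ = ρbar (σ i)^{±1}` and
`c i φ ∉ (φ - 1) N₀`. -/
theorem exists_isTWSet_kill_core (h : Hyp 𝒪 p ρbar S Smin) (Sbig : Finset ℕ) (hS : S ⊆ Sbig)
    (n : ℕ) {N : Type} [AddCommGroup N] (N₀ : AddSubgroup N) (act : GQ → N → N)
    (hact1 : ∀ x, act 1 x = x) (hactmul : ∀ σ τ x, act (σ * τ) x = act σ (act τ x))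
    (hactadd : ∀ σ x y, act σ (x + y) = act σ x + act σ y)
    (hactlev : ∃ L : IntermediateField ℚ Qb, FiniteDimensional ℚ L ∧
      ∀ σ : GQ, (∀ x ∈ L, σ x = x) → ∀ m, act σ m = m)
    {r : ℕ} (c : Fin r → GQ → N) (hc : ∀ i σ τ, c i (σ * τ) = c i σ + act σ (c i τ))
    (hclev : ∀ i, ∃ L : IntermediateField ℚ Qb, FiniteDimensional ℚ L ∧
      ∀ σ : GQ, (∀ x ∈ L, σ x = x) → c i σ = 0)
    (σ : Fin r → GQ) (hσHn : ∀ i, σ i ∈ Hn p n)
    (hσ : ∀ i, ∃ α β : ResidueField 𝒪, α ≠ β ∧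
      LinearMap.charpoly (ρbar.ρ (σ i)) = (X - C α) * (X - C β))
    (hnot : ∀ i, ¬ ∃ m ∈ N₀, c i (σ i) = act (σ i) m - m) :
    ∃ qv : Fin r → ℕ, IsTWSet p ρbar S n qv ∧ (∀ i, qv i ∉ Sbig) ∧
      ∀ i, ∃ (P : ValuationSubring Qb) (φ : GQ), P.LiesOverPrime (qv i) ∧
        P.IsFrobeniusAt φ (qv i) ∧
        (ρbar.ρ φ = ρbar.ρ (σ i) ∨ ρbar.ρ φ = ρbar.ρ (σ i)⁻¹) ∧
        ¬ ∃ m ∈ N₀, c i φ = act φ m - m := by
  obtain ⟨qv, hinj, hq, hall, hex⟩ :=
    Fermat.Agent.Lib.Chebotarev.TWPrime.exists_tw_family p ρbar Sbig (hS (h.hSmin h.hpSmin))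
      (fun q hq hqS => Fermat.Agent.S56.TW.Cheb.unramified_of_hyp h q hq (fun hh => hqS (hS hh)))
      n (MonoidHom.pi fun i => affineU act hact1 hactmul hactadd (c i) (hc i))
      (finiteLevel_pi _ fun i =>
        finiteLevel_affineU act hact1 hactmul hactadd (c i) (hc i) hactlev (hclev i))
      r σ hσHn hσ
  refine ⟨qv, ⟨hinj, fun i => ⟨(hq i).1, fun hh => (hq i).2.1 (hS hh), (hq i).2.2⟩, hall⟩,
    fun i => (hq i).2.1, fun i => ?_⟩
  obtain ⟨P, φ, hP, hφ, hor⟩ := hex i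
  refine ⟨P, φ, hP, hφ, ?_, ?_⟩
  · rcases hor with ⟨-, h2⟩ | ⟨-, h2⟩
    · exact Or.inl h2
    · exact Or.inr h2
  · intro hcon
    apply hnot i
    rw [exists_sub_iff_exists_fixed act hact1 hactmul hactadd (c i) (hc i) N₀] at hcon ⊢
    rcases hor with ⟨h1, -⟩ | ⟨h1, -⟩
    · have h3 := congrFun h1 i
      simp only [MonoidHom.pi_apply] at h3
      rw [← h3]
      exact hcon
    · have h3 := congrFun h1 i
      simp only [MonoidHom.pi_apply, Pi.inv_apply] at h3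
      rw [h3] at hcon
      exact (exists_fixed_inv_iff N₀ _).mp hcon

/-- The core with `N₀ = N`: the conclusion reads `c i φ ∉ (φ - 1) N`. -/
theorem exists_isTWSet_kill_core_top (h : Hyp 𝒪 p ρbar S Smin) (Sbig : Finset ℕ) (hS : S ⊆ Sbig)
    (n : ℕ) {N : Type} [AddCommGroup N] (act : GQ → N → N)
    (hact1 : ∀ x, act 1 x = x) (hactmul : ∀ σ τ x, act (σ * τ) x = act σ (act τ x))
    (hactadd : ∀ σ x y, act σ (x + y) = act σ x + act σ y)
    (hactlev : ∃ L : IntermediateField ℚ Qb, FiniteDimensional ℚ L ∧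
      ∀ σ : GQ, (∀ x ∈ L, σ x = x) → ∀ m, act σ m = m)
    {r : ℕ} (c : Fin r → GQ → N) (hc : ∀ i σ τ, c i (σ * τ) = c i σ + act σ (c i τ))
    (hclev : ∀ i, ∃ L : IntermediateField ℚ Qb, FiniteDimensional ℚ L ∧
      ∀ σ : GQ, (∀ x ∈ L, σ x = x) → c i σ = 0)
    (σ : Fin r → GQ) (hσHn : ∀ i, σ i ∈ Hn p n)
    (hσ : ∀ i, ∃ α β : ResidueField 𝒪, α ≠ β ∧
      LinearMap.charpoly (ρbar.ρ (σ i)) = (X - C α) * (X - C β))
    (hnot : ∀ i, ¬ ∃ m, c i (σ i) = act (σ i) m - m) :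
    ∃ qv : Fin r → ℕ, IsTWSet p ρbar S n qv ∧ (∀ i, qv i ∉ Sbig) ∧
      ∀ i, ∃ (P : ValuationSubring Qb) (φ : GQ), P.LiesOverPrime (qv i) ∧
        P.IsFrobeniusAt φ (qv i) ∧
        (ρbar.ρ φ = ρbar.ρ (σ i) ∨ ρbar.ρ φ = ρbar.ρ (σ i)⁻¹) ∧
        ¬ ∃ m, c i φ = act φ m - m := by
  obtain ⟨qv, h1, h2, h3⟩ := exists_isTWSet_kill_core h Sbig hS n (⊤ : AddSubgroup N) act hact1
    hactmul hactadd hactlev c hc hclev σ hσHn hσ
    (fun i ⟨m, _, hm⟩ => hnot i ⟨m, hm⟩)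
  refine ⟨qv, h1, h2, fun i => ?_⟩
  obtain ⟨P, φ, hP, hφ, hor, hn⟩ := h3 i
  exact ⟨P, φ, hP, hφ, hor, fun ⟨m, hm⟩ => hn ⟨m, AddSubgroup.mem_top m, hm⟩⟩

end Core

/-! ### The matrix form: cocycles of the twisted adjoint action -/

section Mat

variable {𝒪 : Type} [CommRing 𝒪] [IsLocalRing 𝒪] {p : ℕ} [Fact p.Prime]
  {ρbar : ResidualGaloisRep (ResidueField 𝒪)} {S Smin : Finset ℕ}

theorem tw_mul_apply {k : Type} [Field k] (g g' : GL (Fin 2) k) (X : Matrix (Fin 2) (Fin 2) k) :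
    Fermat.Agent.S56.G.tw (g * g') X = Fermat.Agent.S56.G.tw g (Fermat.Agent.S56.G.tw g' X) := by
  simp only [Fermat.Agent.S56.G.tw, Units.val_mul, Matrix.det_mul, _root_.mul_inv_rev,
    Matrix.mul_smul, Matrix.smul_mul, smul_smul, Matrix.mul_assoc]

theorem tw_one_apply {k : Type} [Field k] (X : Matrix (Fin 2) (Fin 2) k) :
    Fermat.Agent.S56.G.tw (1 : GL (Fin 2) k) X = X := by
  simp [Fermat.Agent.S56.G.tw]

theorem tw_add_apply {k : Type} [Field k] (g : GL (Fin 2) k) (X Y : Matrix (Fin 2) (Fin 2) k) :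
    Fermat.Agent.S56.G.tw g (X + Y) = Fermat.Agent.S56.G.tw g X + Fermat.Agent.S56.G.tw g Y := by
  simp [Fermat.Agent.S56.G.tw, Matrix.mul_add, Matrix.add_mul]

/-- The trace-zero matrices, as an additive subgroup. -/
def trZero (k : Type) [Field k] : AddSubgroup (Matrix (Fin 2) (Fin 2) k) :=
  (Matrix.traceAddMonoidHom (Fin 2) k).ker

theorem mem_trZero {k : Type} [Field k] (Y : Matrix (Fin 2) (Fin 2) k) :
    Y ∈ trZero k ↔ Y.trace = 0 := Iff.rfl

/-- **Taylor-Wiles primes killing given cocycles of the twisted adjoint action.**  Given the exit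
`ExitStatement` of brick G and the frozen hypotheses of S56: for trace-zero cocycles `ψ i` of
finite level for the action `tw ∘ rhoGL` which are not coboundaries, there is a Taylor-Wiles set
`qv` of level `n`, outside the given finite set `Sbig ⊇ S`, and Frobenius elements `φ` over
`qv i` such that `ψ i φ ∉ (φ - 1) ad⁰`. -/
theorem exists_isTWSet_kill (hG : Fermat.Agent.S56.G.ExitStatement.{0, 0})
    (h : Hyp 𝒪 p ρbar S Smin) (b0 : Module.Basis (Fin 2) (ResidueField 𝒪) ρbar.V)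
    (Sbig : Finset ℕ) (hS : S ⊆ Sbig) (n : ℕ) {r : ℕ}
    (ψ : Fin r → GQ → Matrix (Fin 2) (Fin 2) (ResidueField 𝒪))
    (hψ : ∀ i a b, ψ i (a * b) = ψ i a + Fermat.Agent.S56.G.tw (rhoGL ρbar b0 a) (ψ i b))
    (hψtr : ∀ i a, (ψ i a).trace = 0)
    (hψlev : ∀ i, ∃ L : IntermediateField ℚ Qb, FiniteDimensional ℚ L ∧
      ∀ σ : GQ, (∀ x ∈ L, σ x = x) → ψ i σ = 0)
    (hnot : ∀ i, ¬ ∃ Y : Matrix (Fin 2) (Fin 2) (ResidueField 𝒪), Y.trace = 0 ∧
      ∀ a, ψ i a = Fermat.Agent.S56.G.tw (rhoGL ρbar b0 a) Y - Y) :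
    ∃ qv : Fin r → ℕ, IsTWSet p ρbar S n qv ∧ (∀ i, qv i ∉ Sbig) ∧
      ∀ i, ∃ (P : ValuationSubring Qb) (φ : GQ), P.LiesOverPrime (qv i) ∧
        P.IsFrobeniusAt φ (qv i) ∧
        ¬ ∃ Y : Matrix (Fin 2) (Fin 2) (ResidueField 𝒪), Y.trace = 0 ∧
          ψ i φ = Fermat.Agent.S56.G.tw (rhoGL ρbar b0 φ) Y - Y := by
  have := charP_of_hyp h
  choose σ hσHn hσtr hσnot using fun i =>
    hG GQ (ResidueField 𝒪) p h.hp2 (rhoGL ρbar b0) (Hn p n) (rhoHyp_of_hyp h b0 n) (ψ i) (hψ i)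
      (hψtr i) (hnot i)
  obtain ⟨L₀, hL₀, hlev₀⟩ := finiteLevel_rhoGL ρbar b0
  obtain ⟨qv, h1, h2, h3⟩ := exists_isTWSet_kill_core h Sbig hS n
    (trZero (ResidueField 𝒪)) (fun a Y => Fermat.Agent.S56.G.tw (rhoGL ρbar b0 a) Y)
    (fun Y => by rw [map_one, tw_one_apply])
    (fun a b Y => by rw [map_mul, tw_mul_apply])
    (fun a X Y => tw_add_apply _ X Y)
    ⟨L₀, hL₀, fun a ha Y => by rw [hlev₀ a ha, tw_one_apply]⟩
    ψ hψ hψlev σ hσHn
    (fun i => exists_ne_of_trace_sq_ne_four h b0 n (hσHn i) (hσtr i))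
    (fun i ⟨Y, hY, hYe⟩ => hσnot i ⟨Y, hY, hYe⟩)
  refine ⟨qv, h1, h2, fun i => ?_⟩
  obtain ⟨P, φ, hP, hφ, -, hn⟩ := h3 i
  exact ⟨P, φ, hP, hφ, fun ⟨Y, hY, hYe⟩ => hn ⟨Y, hY, hYe⟩⟩

/-- The two matrix forms of `ρbar` (`G/HypAdapter.lean` and `TW/RhoHyp.lean`) agree. -/
theorem matRho_eq_rhoGL {k : Type} [Field k] (ρbar : ResidualGaloisRep k)
    (b : Module.Basis (Fin 2) k ρbar.V) :
    Fermat.Agent.S56.G.HypAdapter.matRho ρbar b = rhoGL ρbar b :=
  MonoidHom.ext fun _ => Units.ext rfl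

/-- The two spellings of the fixer of the `p ^ (n + 1)`-th roots of unity agree. -/
theorem cycFix_eq_Hn (p n : ℕ) : Fermat.Agent.S56.G.HypAdapter.cycFix p n = Hn p n :=
  Subgroup.ext fun _ => Iff.rfl

/-- `exists_isTWSet_kill` in the vocabulary of `G/HypAdapter.lean` (`matRho`). -/
theorem exists_isTWSet_kill_matRho (hG : Fermat.Agent.S56.G.ExitStatement.{0, 0})
    (h : Hyp 𝒪 p ρbar S Smin) (b0 : Module.Basis (Fin 2) (ResidueField 𝒪) ρbar.V)
    (Sbig : Finset ℕ) (hS : S ⊆ Sbig) (n : ℕ) {r : ℕ}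
    (ψ : Fin r → GQ → Matrix (Fin 2) (Fin 2) (ResidueField 𝒪))
    (hψ : ∀ i a b, ψ i (a * b) =
      ψ i a + Fermat.Agent.S56.G.tw (Fermat.Agent.S56.G.HypAdapter.matRho ρbar b0 a) (ψ i b))
    (hψtr : ∀ i a, (ψ i a).trace = 0)
    (hψlev : ∀ i, ∃ L : IntermediateField ℚ Qb, FiniteDimensional ℚ L ∧
      ∀ σ : GQ, (∀ x ∈ L, σ x = x) → ψ i σ = 0)
    (hnot : ∀ i, ¬ ∃ Y : Matrix (Fin 2) (Fin 2) (ResidueField 𝒪), Y.trace = 0 ∧
      ∀ a, ψ i a = Fermat.Agent.S56.G.tw (Fermat.Agent.S56.G.HypAdapter.matRho ρbar b0 a) Y - Y) :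
    ∃ qv : Fin r → ℕ, IsTWSet p ρbar S n qv ∧ (∀ i, qv i ∉ Sbig) ∧
      ∀ i, ∃ (P : ValuationSubring Qb) (φ : GQ), P.LiesOverPrime (qv i) ∧
        P.IsFrobeniusAt φ (qv i) ∧
        ¬ ∃ Y : Matrix (Fin 2) (Fin 2) (ResidueField 𝒪), Y.trace = 0 ∧
          ψ i φ = Fermat.Agent.S56.G.tw (Fermat.Agent.S56.G.HypAdapter.matRho ρbar b0 φ) Y - Y := by
  rw [matRho_eq_rhoGL] at hψ hnot ⊢
  exact exists_isTWSet_kill hG h b0 Sbig hS n ψ hψ hψtr hψlev hnot

end Mat

end Fermat.Agent.S56.TW.Kill
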