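/-
S56, brick TW: the Taylor-Wiles oracle in the vocabulary of `Rep` and of the level cohomology
`S55/Abs` (the hypothesis `horacle` of the pigeonhole `GW/KillSet.exists_kills`).

`N : Rep F G_ℚ` is a module with a matrix realisation `ι : N → M₂(k)` (additive, injective, with
image the trace-zero matrices, intertwining `N.ρ σ` with `tw (rhoGL ρbar b0 σ)`).  For finitely
many 1-cocycles `c i` of level `S₀` which are not coboundaries there is a Taylor-Wiles set `qv`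
of level `n`, outside `S₀`, with Frobenius elements `φ` over `qv i` such that
`c i φ ∉ (φ - 1) N`.

The exit of brick G (`G/Final.exitStatement`) is used: nothing is assumed besides `Contract.Hyp`.
-/
import Mathlib
import Fermat.Agent.S56.TW.Kill
import Fermat.Agent.S56.G.Final
import Fermat.Agent.S55.Abs.Bridge

set_option autoImplicit false

namespace Fermat.Agent.S56.TW.Oracle

open Polynomial IsLocalRing Matrix groupCohomology
open Fermat.Agent.S56.Contract Fermat.Agent.S56.TW.RhoHyp Fermat.Agent.S55.Abs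

local notation "Qb" => AlgebraicClosure ℚ

/-- A level-`S₀` cocycle vanishes on the fixer of a finite extension. -/
theorem exists_level_of_mem_Z1 {F : Type} [Field F] (S₀ : Finset Nat.Primes) (N : Rep.{0} F GQ)
    {c : GQ → N} (hc : c ∈ Z1 (globalLevel S₀) N) :
    ∃ L : IntermediateField ℚ Qb, FiniteDimensional ℚ L ∧
      ∀ σ : GQ, (∀ x ∈ L, σ x = x) → c σ = 0 := by
  obtain ⟨⟨U, ⟨L, hL, rfl⟩, hU⟩, hcoc⟩ := hc
  have hcoc' := (mem_cocycles₁_iff c).1 hcoc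
  have h1 : c 1 = 0 := by
    have h := hcoc' 1 1
    rw [mul_one, map_one, Module.End.one_apply] at h
    exact left_eq_add.mp h
  refine ⟨L, hL.1, fun σ hσ => ?_⟩
  have h2 := hU 1 σ ((IntermediateField.mem_fixingSubgroup_iff L σ).2 hσ)
  rw [one_mul] at h2
  rw [h2, h1]

variable {𝒪 : Type} [CommRing 𝒪] [IsLocalRing 𝒪] {p : ℕ} [Fact p.Prime]
  {ρbar : ResidualGaloisRep (ResidueField 𝒪)} {S Smin : Finset ℕ}

/-- **The Taylor-Wiles oracle.**  Under the frozen hypotheses of S56, let `N` be a representation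
of `G_ℚ` with a matrix realisation `ι` onto the trace-zero matrices with the twisted adjoint
action `tw ∘ rhoGL ρbar b0`.  For cocycles `c i` (`i : Fin r`) of level `S₀ ⊇ S` which are not
coboundaries, and every `n`, there are primes `qv i ∉ S₀` forming a Taylor-Wiles set of level `n`
and Frobenius elements `φ` over `qv i` with `c i φ ∉ (φ - 1) N`. -/
theorem oracle (h : Hyp 𝒪 p ρbar S Smin) (b0 : Module.Basis (Fin 2) (ResidueField 𝒪) ρbar.V)
    (S₀ : Finset Nat.Primes) (hS : ∀ q (hq : q.Prime), q ∈ S → (⟨q, hq⟩ : Nat.Primes) ∈ S₀)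
    (n : ℕ) {F : Type} [Field F] (N : Rep.{0} F GQ)
    (ι : N →+ Matrix (Fin 2) (Fin 2) (ResidueField 𝒪)) (hι : Function.Injective ι)
    (hιρ : ∀ σ m, ι (N.ρ σ m) = Fermat.Agent.S56.G.tw (rhoGL ρbar b0 σ) (ι m))
    (hιtr : ∀ m, (ι m).trace = 0)
    (hιsurj : ∀ Y : Matrix (Fin 2) (Fin 2) (ResidueField 𝒪), Y.trace = 0 → ∃ m, ι m = Y)
    {r : ℕ} (c : Fin r → GQ → N) (hc : ∀ i, c i ∈ Z1 (globalLevel S₀) N)
    (hnc : ∀ i, c i ∉ coboundaries₁ N) :
    ∃ qv : Fin r → Nat.Primes, IsTWSet p ρbar S n (fun i => (qv i : ℕ)) ∧ (∀ i, qv i ∉ S₀) ∧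
      ∀ i, ∃ (A : ValuationSubring Qb) (φ : GQ), A.LiesOverPrime (qv i : ℕ) ∧
        A.IsFrobeniusAt φ (qv i : ℕ) ∧ ¬ ∃ m : N, c i φ = N.ρ φ m - m := by
  classical
  have hcoc : ∀ i a b, c i (a * b) = N.ρ a (c i b) + c i a :=
    fun i => (mem_cocycles₁_iff (c i)).1 (hc i).2
  obtain ⟨qv, hTW, hbig, hex⟩ := Fermat.Agent.S56.TW.Kill.exists_isTWSet_kill
    Fermat.Agent.S56.G.Final.exitStatement h b0 (S₀.image (fun q : Nat.Primes => (q : ℕ)))
    (fun q hq => Finset.mem_image.mpr ⟨⟨q, h.hS q hq⟩, hS q (h.hS q hq) hq, rfl⟩) n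
    (fun i a => ι (c i a))
    (fun i a b => by rw [hcoc, map_add, hιρ, add_comm])
    (fun i a => hιtr _)
    (fun i => by
      obtain ⟨L, hL, hL0⟩ := exists_level_of_mem_Z1 S₀ N (hc i)
      exact ⟨L, hL, fun σ hσ => by rw [hL0 σ hσ, map_zero]⟩)
    (fun i ⟨Y, hY, hYe⟩ => hnc i (by
      obtain ⟨m, rfl⟩ := hιsurj Y hY
      refine ⟨m, funext fun a => ?_⟩
      apply hι
      rw [hYe a, ← hιρ, ← map_sub]
      rfl))
  refine ⟨fun i => ⟨qv i, (hTW.2.1 i).1⟩, hTW,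
    fun i hi => hbig i (Finset.mem_image.mpr ⟨_, hi, rfl⟩), fun i => ?_⟩
  obtain ⟨P, φ, hP, hφ, hn⟩ := hex i
  exact ⟨P, φ, hP, hφ, fun ⟨m, hm⟩ => hn ⟨ι m, hιtr m, by rw [hm, map_sub, hιρ]⟩⟩

/-- The oracle in the vocabulary of `G/HypAdapter.lean` (`matRho`). -/
theorem oracle_matRho (h : Hyp 𝒪 p ρbar S Smin)
    (b0 : Module.Basis (Fin 2) (ResidueField 𝒪) ρbar.V)
    (S₀ : Finset Nat.Primes) (hS : ∀ q (hq : q.Prime), q ∈ S → (⟨q, hq⟩ : Nat.Primes) ∈ S₀)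
    (n : ℕ) {F : Type} [Field F] (N : Rep.{0} F GQ)
    (ι : N →+ Matrix (Fin 2) (Fin 2) (ResidueField 𝒪)) (hι : Function.Injective ι)
    (hιρ : ∀ σ m, ι (N.ρ σ m) =
      Fermat.Agent.S56.G.tw (Fermat.Agent.S56.G.HypAdapter.matRho ρbar b0 σ) (ι m))
    (hιtr : ∀ m, (ι m).trace = 0)
    (hιsurj : ∀ Y : Matrix (Fin 2) (Fin 2) (ResidueField 𝒪), Y.trace = 0 → ∃ m, ι m = Y)
    {r : ℕ} (c : Fin r → GQ → N) (hc : ∀ i, c i ∈ Z1 (globalLevel S₀) N)
    (hnc : ∀ i, c i ∉ coboundaries₁ N) :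
    ∃ qv : Fin r → Nat.Primes, IsTWSet p ρbar S n (fun i => (qv i : ℕ)) ∧ (∀ i, qv i ∉ S₀) ∧
      ∀ i, ∃ (A : ValuationSubring Qb) (φ : GQ), A.LiesOverPrime (qv i : ℕ) ∧
        A.IsFrobeniusAt φ (qv i : ℕ) ∧ ¬ ∃ m : N, c i φ = N.ρ φ m - m := by
  rw [Fermat.Agent.S56.TW.Kill.matRho_eq_rhoGL] at hιρ
  exact oracle h b0 S₀ hS n N ι hι hιρ hιtr hιsurj c hc hnc

end Fermat.Agent.S56.TW.Oracle
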