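/-
S56, brick TW: the exit of the Taylor-Wiles side in the vocabulary of `GW/KillClass.lean`.

For a representation `N` of `G_ℚ` with a matrix realisation onto the trace-zero matrices with the
twisted adjoint action (`ad⁰(1)` in matrix form), discrete of level `S₀ ⊇ S`, with
`#H¹(level S₀, N) = r + 1`: for every `n` there are `r` primes `qv i ∉ S₀` forming a
Taylor-Wiles set of level `n` such that `Kills S₀ (S₀ ∪ Q) N`, i.e. the classes of level `S₀`
which are locally trivial at the primes of `Q` vanish.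

`TW/Oracle.oracle` (Chebotarev + the exit of brick G) composed with the pigeonhole
`GW/KillSet.exists_kills`.
-/
import Mathlib
import Fermat.Agent.S56.TW.Oracle
import Fermat.Agent.S56.GW.KillSet

set_option autoImplicit false

namespace Fermat.Agent.S56.TW.Exit

open Polynomial IsLocalRing Matrix groupCohomology
open Fermat.Agent.S56.Contract Fermat.Agent.S56.TW.RhoHyp Fermat.Agent.S55.Abs
open Fermat.Agent.S56.GW.KillClass

variable {𝒪 : Type} [CommRing 𝒪] [IsLocalRing 𝒪] {p : ℕ} [Fact p.Prime]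
  {ρbar : ResidualGaloisRep (ResidueField 𝒪)} {S Smin : Finset ℕ}

/-- **Taylor-Wiles sets killing `H¹(level S₀, N)`**, `N` a matrix model of `ad⁰(1)`. -/
theorem exists_isTWSet_kills (h : Hyp 𝒪 p ρbar S Smin)
    (b0 : Module.Basis (Fin 2) (ResidueField 𝒪) ρbar.V)
    (S₀ : Finset Nat.Primes) (hS : ∀ q (hq : q.Prime), q ∈ S → (⟨q, hq⟩ : Nat.Primes) ∈ S₀)
    {F : Type} [Field F] (N : Rep.{0} F GQ)
    (ι : N →+ Matrix (Fin 2) (Fin 2) (ResidueField 𝒪)) (hι : Function.Injective ι)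
    (hιρ : ∀ σ m, ι (N.ρ σ m) = Fermat.Agent.S56.G.tw (rhoGL ρbar b0 σ) (ι m))
    (hιtr : ∀ m, (ι m).trace = 0)
    (hιsurj : ∀ Y : Matrix (Fin 2) (Fin 2) (ResidueField 𝒪), Y.trace = 0 → ∃ m, ι m = Y)
    (hN : IsDisc (globalLevel S₀) N) [Finite (Fermat.Agent.S55.Abs.H1 (globalLevel S₀) N)]
    {r : ℕ} (hr : Nat.card (Fermat.Agent.S55.Abs.H1 (globalLevel S₀) N) = r + 1) (n : ℕ) :
    ∃ qv : Fin r → Nat.Primes, IsTWSet p ρbar S n (fun i => (qv i : ℕ)) ∧ (∀ i, qv i ∉ S₀) ∧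
      Kills S₀ (S₀ ∪ Finset.univ.image qv) Finset.subset_union_left N :=
  Fermat.Agent.S56.GW.KillSet.exists_kills hN hr
    (fun qv => IsTWSet p ρbar S n (fun i => (qv i : ℕ)))
    (fun c hc hnc =>
      Fermat.Agent.S56.TW.Oracle.oracle h b0 S₀ hS n N ι hι hιρ hιtr hιsurj c hc hnc)

/-- The same in the vocabulary of `G/HypAdapter.lean` (`matRho`). -/
theorem exists_isTWSet_kills_matRho (h : Hyp 𝒪 p ρbar S Smin)
    (b0 : Module.Basis (Fin 2) (ResidueField 𝒪) ρbar.V)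
    (S₀ : Finset Nat.Primes) (hS : ∀ q (hq : q.Prime), q ∈ S → (⟨q, hq⟩ : Nat.Primes) ∈ S₀)
    {F : Type} [Field F] (N : Rep.{0} F GQ)
    (ι : N →+ Matrix (Fin 2) (Fin 2) (ResidueField 𝒪)) (hι : Function.Injective ι)
    (hιρ : ∀ σ m, ι (N.ρ σ m) =
      Fermat.Agent.S56.G.tw (Fermat.Agent.S56.G.HypAdapter.matRho ρbar b0 σ) (ι m))
    (hιtr : ∀ m, (ι m).trace = 0)
    (hιsurj : ∀ Y : Matrix (Fin 2) (Fin 2) (ResidueField 𝒪), Y.trace = 0 → ∃ m, ι m = Y)
    (hN : IsDisc (globalLevel S₀) N) [Finite (Fermat.Agent.S55.Abs.H1 (globalLevel S₀) N)]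
    {r : ℕ} (hr : Nat.card (Fermat.Agent.S55.Abs.H1 (globalLevel S₀) N) = r + 1) (n : ℕ) :
    ∃ qv : Fin r → Nat.Primes, IsTWSet p ρbar S n (fun i => (qv i : ℕ)) ∧ (∀ i, qv i ∉ S₀) ∧
      Kills S₀ (S₀ ∪ Finset.univ.image qv) Finset.subset_union_left N := by
  rw [Fermat.Agent.S56.TW.Kill.matRho_eq_rhoGL] at hιρ
  exact exists_isTWSet_kills h b0 S₀ hS N ι hι hιρ hιtr hιsurj hN hr n

end Fermat.Agent.S56.TW.Exit
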