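/-
S56, brick TW / SEL junction, row D1 (helper165): the Taylor-Wiles primes kill the level-`S₀`
cohomology of the twisted dual of ANY model of `ad⁰ ρbar` - the clause `hkill` of
`GW/Assembly.finrank_le_of_kill` / `GW/Numeric.finrank_le_card_mul`, under the frozen hypotheses
`Contract.Hyp` only.

`k := ResidueField 𝒪` with an `Algebra (ZMod p) k` structure, finite over `ZMod p`;
`ρ := rhoGL ρbar b0 : G_ℚ →* GL₂(k)`; `S₀ ⊇ S` a finite set of primes.

* `exists_tw_kills_twRep` : for `r + 1 = #H¹(level S₀, twRep F ρ)` and every `n` there is a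
  Taylor-Wiles set `qv : Fin r → primes` of level `n`, outside `S₀`, with
  `Kills S₀ (S₀ ∪ {qv i}) (twRep F ρ)` (`TW/Exit.exists_isTWSet_kills` at the matrix model);
* `exists_tw_kills_dualTwist` : the same with `Kills S₀ (S₀ ∪ {qv i}) (M.dualTwist (cycloChar p))`
  for any `M : Rep (ZMod p) G_ℚ` with a matrix realisation `mat` onto the trace-zero matrices,
  `mat (g x) * ρ g = ρ g * mat x` (`GW/TwRep.kills_dualTwist_of_twRep`);
* `hkill_dualTwist` : the conclusion in the spelling of the counting data `dataS`, i.e. the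
  binder `hkill` of `GW/Assembly.finrank_le_of_kill`.
-/
import Fermat.Agent.S56.TW.Exit
import Fermat.Agent.S56.GW.RhoLevel

set_option autoImplicit false

open CategoryTheory groupCohomology ExtCitation

namespace Fermat.Agent.S56.TW.KillFinal

open Polynomial IsLocalRing
open Fermat.Agent.S56.Contract Fermat.Agent.S56.TW.RhoHyp Fermat.Agent.S55 Fermat.Agent.S55.Abs
  Fermat.Agent.S55.Count Fermat.Agent.S56.GW Fermat.Agent.S56.GW.KillClass
  Fermat.Agent.S56.GW.TwRep Fermat.Agent.S56.GW.RhoLevel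

local notation "Qb" => AlgebraicClosure ℚ

variable {𝒪 : Type} [CommRing 𝒪] [IsLocalRing 𝒪] {p : ℕ} [Fact p.Prime]
  {ρbar : ResidualGaloisRep (ResidueField 𝒪)} {S Smin : Finset ℕ}

/-- **Taylor-Wiles primes killing `H¹(level S₀, ad⁰ ρbar (1))`, matrix model.**  With
`r + 1 = #H¹(level S₀, twRep F ρ)`: for every `n` there is a Taylor-Wiles set of `r` primes of
level `n`, outside `S₀`, such that every class of level `S₀` which is locally trivial at these
primes vanishes. -/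
theorem exists_tw_kills_twRep (F : Type) [Field F] [Algebra F (ResidueField 𝒪)]
    (h : Hyp 𝒪 p ρbar S Smin) (b0 : Module.Basis (Fin 2) (ResidueField 𝒪) ρbar.V)
    (S₀ : Finset Nat.Primes) (hS : ∀ q (hq : q.Prime), q ∈ S → (⟨q, hq⟩ : Nat.Primes) ∈ S₀)
    [Finite (Abs.H1 (globalLevel S₀) (twRep F (rhoGL ρbar b0)))] {r : ℕ}
    (hr : Nat.card (Abs.H1 (globalLevel S₀) (twRep F (rhoGL ρbar b0))) = r + 1) (n : ℕ) :
    ∃ qv : Fin r → Nat.Primes, IsTWSet p ρbar S n (fun i => (qv i : ℕ)) ∧ (∀ i, qv i ∉ S₀) ∧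
      Kills S₀ (S₀ ∪ Finset.univ.image qv) Finset.subset_union_left
        (twRep F (rhoGL ρbar b0)) :=
  Fermat.Agent.S56.TW.Exit.exists_isTWSet_kills h b0 S₀ hS (twRep F (rhoGL ρbar b0))
    (M0 F (ResidueField 𝒪)).subtype.toAddMonoidHom Subtype.val_injective
    (fun _ _ => rfl) (fun m => (m : ↥(M0 F (ResidueField 𝒪))).2)
    (fun Y hY => ⟨(⟨Y, hY⟩ : ↥(M0 F (ResidueField 𝒪))), rfl⟩)
    (isDisc_twRep_of_hyp F h b0 S₀ fun q hq hqS => hS q hq (h.hSmin hqS)) hr n

/-- **Taylor-Wiles primes killing `H¹(level S₀, (ad⁰ ρbar)^∨(1))`, any model.**  Let `M` be a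
representation of `G_ℚ` over `ZMod p` with an injective matrix realisation `mat` onto the
trace-zero matrices over `k`, `mat (g x) * ρ g = ρ g * mat x` (a model of `ad⁰ ρbar`).  With
`r + 1 = #H¹(level S₀, twRep (ZMod p) ρ)`: for every `n` there is a Taylor-Wiles set of `r`
primes of level `n`, outside `S₀`, which kills `H¹(level S₀, M.dualTwist (cycloChar p))`. -/
theorem exists_tw_kills_dualTwist [Algebra (ZMod p) (ResidueField 𝒪)]
    [Module.Finite (ZMod p) (ResidueField 𝒪)]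
    (h : Hyp 𝒪 p ρbar S Smin) (b0 : Module.Basis (Fin 2) (ResidueField 𝒪) ρbar.V)
    (S₀ : Finset Nat.Primes) (hS : ∀ q (hq : q.Prime), q ∈ S → (⟨q, hq⟩ : Nat.Primes) ∈ S₀)
    [Finite (Abs.H1 (globalLevel S₀) (twRep (ZMod p) (rhoGL ρbar b0)))] {r : ℕ}
    (hr : Nat.card (Abs.H1 (globalLevel S₀) (twRep (ZMod p) (rhoGL ρbar b0))) = r + 1)
    (M : Rep.{0} (ZMod p) GQ) [Module.Finite (ZMod p) M]
    (mat : M →ₗ[ZMod p] Matrix (Fin 2) (Fin 2) (ResidueField 𝒪))
    (hinj : Function.Injective mat) (htr : ∀ x, (mat x).trace = 0)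
    (hsurj : ∀ X : Matrix (Fin 2) (Fin 2) (ResidueField 𝒪), X.trace = 0 → ∃ x, mat x = X)
    (heq : ∀ g x, mat (M.ρ g x) * (rhoGL ρbar b0 g).val = (rhoGL ρbar b0 g).val * mat x)
    (n : ℕ) :
    ∃ qv : Fin r → Nat.Primes, IsTWSet p ρbar S n (fun i => (qv i : ℕ)) ∧ (∀ i, qv i ∉ S₀) ∧
      Kills S₀ (S₀ ∪ Finset.univ.image qv) Finset.subset_union_left
        (M.dualTwist (cycloChar p)) := by
  obtain ⟨qv, hTW, hq, hK⟩ := exists_tw_kills_twRep (ZMod p) h b0 S₀ hS hr n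
  refine ⟨qv, hTW, hq, ?_⟩
  have heq' : ∀ g x, mat (M.ρ g x) =
      (rhoGL ρbar b0 g).val * mat x *
        ((rhoGL ρbar b0 g)⁻¹ : GL (Fin 2) (ResidueField 𝒪)).val := by
    intro g x
    have h1 : (rhoGL ρbar b0 g).val *
        ((rhoGL ρbar b0 g)⁻¹ : GL (Fin 2) (ResidueField 𝒪)).val = 1 := by
      rw [← Units.val_mul, mul_inv_cancel, Units.val_one]
    rw [← heq g x, Matrix.mul_assoc, h1, Matrix.mul_one]
  have hne : NeZero p := ⟨(Fact.out : p.Prime).ne_zero⟩
  have hsep : Algebra.IsSeparable (ZMod p) (ResidueField 𝒪) := inferInstance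
  exact kills_dualTwist_of_twRep (two_ne_zero_of_hyp h) Finset.subset_union_left
    (rhoGL ρbar b0) (cycloChar p) (det_rhoGL h b0) M mat hinj htr hsurj heq' hK

/-- The same conclusion in the spelling of the counting data: the binder `hkill` of
`GW/Assembly.finrank_le_of_kill` and `GW/Numeric.finrank_le_card_mul`, with `S₀ := S_big` and
`T := S₀ ∪ Q`. -/
theorem exists_tw_hkill [Algebra (ZMod p) (ResidueField 𝒪)]
    [Module.Finite (ZMod p) (ResidueField 𝒪)]
    (h : Hyp 𝒪 p ρbar S Smin) (b0 : Module.Basis (Fin 2) (ResidueField 𝒪) ρbar.V)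
    (S₀ : Finset Nat.Primes) (hS : ∀ q (hq : q.Prime), q ∈ S → (⟨q, hq⟩ : Nat.Primes) ∈ S₀)
    [Finite (Abs.H1 (globalLevel S₀) (twRep (ZMod p) (rhoGL ρbar b0)))] {r : ℕ}
    (hr : Nat.card (Abs.H1 (globalLevel S₀) (twRep (ZMod p) (rhoGL ρbar b0))) = r + 1)
    (M : Rep.{0} (ZMod p) GQ) [Module.Finite (ZMod p) M]
    (mat : M →ₗ[ZMod p] Matrix (Fin 2) (Fin 2) (ResidueField 𝒪))
    (hinj : Function.Injective mat) (htr : ∀ x, (mat x).trace = 0)
    (hsurj : ∀ X : Matrix (Fin 2) (Fin 2) (ResidueField 𝒪), X.trace = 0 → ∃ x, mat x = X)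
    (heq : ∀ g x, mat (M.ρ g x) * (rhoGL ρbar b0 g).val = (rhoGL ρbar b0 g).val * mat x)
    (n : ℕ) :
    ∃ qv : Fin r → Nat.Primes, IsTWSet p ρbar S n (fun i => (qv i : ℕ)) ∧ (∀ i, qv i ∉ S₀) ∧
      ∀ (hpT : pPrime p ∈ S₀ ∪ Finset.univ.image qv)
        (invT : InvS p (S₀ ∪ Finset.univ.image qv))
        (y : Abs.H1 (globalLevel S₀) (M.dualTwist (cycloChar p))),
        (∀ v : ↥(S₀ ∪ Finset.univ.image qv), v.1 ∉ S₀ →
          (dataS p (S₀ ∪ Finset.univ.image qv) hpT invT).r1 (M.dualTwist (cycloChar p)) v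
            (incl1 Finset.subset_union_left (M.dualTwist (cycloChar p)) y) = 0) → y = 0 := by
  obtain ⟨qv, hTW, hq, hK⟩ :=
    exists_tw_kills_dualTwist h b0 S₀ hS hr M mat hinj htr hsurj heq n
  exact ⟨qv, hTW, hq, fun hpT invT => hkill_of_kills Finset.subset_union_left hpT invT hK⟩

/-- The set `T ∖ S₀` of Taylor-Wiles primes has at most `r` elements. -/
theorem card_sdiff_le {S₀ : Finset Nat.Primes} {r : ℕ} (qv : Fin r → Nat.Primes) :
    ((S₀ ∪ Finset.univ.image qv) \ S₀).card ≤ r := by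
  classical
  have h1 : (S₀ ∪ Finset.univ.image qv) \ S₀ ⊆ Finset.univ.image qv := by
    intro x hx
    rw [Finset.mem_sdiff, Finset.mem_union] at hx
    exact hx.1.resolve_left hx.2
  calc ((S₀ ∪ Finset.univ.image qv) \ S₀).card ≤ (Finset.univ.image qv).card :=
        Finset.card_le_card h1
    _ ≤ (Finset.univ : Finset (Fin r)).card := Finset.card_image_le
    _ = r := by rw [Finset.card_univ, Fintype.card_fin]

/-- **The Taylor-Wiles side of the junction, `∃ r, ∀ n` form.**  If `H¹(level S₀, twRep)` is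
finite (it is, by the finiteness clause of the counting hypotheses), there is `r` such that for
every `n` there is a Taylor-Wiles set of `r` primes of level `n`, outside `S₀`, for which the
binder `hkill` of `GW/Assembly.finrank_le_of_kill` holds for every model `M` of `ad⁰ ρbar`. -/
theorem exists_r_tw_hkill [Algebra (ZMod p) (ResidueField 𝒪)]
    [Module.Finite (ZMod p) (ResidueField 𝒪)]
    (h : Hyp 𝒪 p ρbar S Smin) (b0 : Module.Basis (Fin 2) (ResidueField 𝒪) ρbar.V)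
    (S₀ : Finset Nat.Primes) (hS : ∀ q (hq : q.Prime), q ∈ S → (⟨q, hq⟩ : Nat.Primes) ∈ S₀)
    [Finite (Abs.H1 (globalLevel S₀) (twRep (ZMod p) (rhoGL ρbar b0)))] :
    ∃ r : ℕ, ∀ n : ℕ, ∃ qv : Fin r → Nat.Primes,
      IsTWSet p ρbar S n (fun i => (qv i : ℕ)) ∧ (∀ i, qv i ∉ S₀) ∧
      ((S₀ ∪ Finset.univ.image qv) \ S₀).card ≤ r ∧
      ∀ (M : Rep.{0} (ZMod p) GQ) [Module.Finite (ZMod p) M]
        (mat : M →ₗ[ZMod p] Matrix (Fin 2) (Fin 2) (ResidueField 𝒪)),
        Function.Injective mat → (∀ x, (mat x).trace = 0) →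
        (∀ X : Matrix (Fin 2) (Fin 2) (ResidueField 𝒪), X.trace = 0 → ∃ x, mat x = X) →
        (∀ g x, mat (M.ρ g x) * (rhoGL ρbar b0 g).val = (rhoGL ρbar b0 g).val * mat x) →
        Kills S₀ (S₀ ∪ Finset.univ.image qv) Finset.subset_union_left
          (M.dualTwist (cycloChar p)) := by
  have hpos : 0 < Nat.card (Abs.H1 (globalLevel S₀) (twRep (ZMod p) (rhoGL ρbar b0))) :=
    Nat.card_pos
  obtain ⟨r, hr⟩ : ∃ r, Nat.card (Abs.H1 (globalLevel S₀) (twRep (ZMod p) (rhoGL ρbar b0)))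
      = r + 1 := ⟨_, (Nat.succ_pred_eq_of_pos hpos).symm⟩
  refine ⟨r, fun n => ?_⟩
  obtain ⟨qv, hTW, hq, hK⟩ := exists_tw_kills_twRep (ZMod p) h b0 S₀ hS hr n
  refine ⟨qv, hTW, hq, card_sdiff_le qv, fun M _ mat hinj htr hsurj heq => ?_⟩
  have heq' : ∀ g x, mat (M.ρ g x) =
      (rhoGL ρbar b0 g).val * mat x *
        ((rhoGL ρbar b0 g)⁻¹ : GL (Fin 2) (ResidueField 𝒪)).val := by
    intro g x
    have h1 : (rhoGL ρbar b0 g).val *
        ((rhoGL ρbar b0 g)⁻¹ : GL (Fin 2) (ResidueField 𝒪)).val = 1 := by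
      rw [← Units.val_mul, mul_inv_cancel, Units.val_one]
    rw [← heq g x, Matrix.mul_assoc, h1, Matrix.mul_one]
  have hne : NeZero p := ⟨(Fact.out : p.Prime).ne_zero⟩
  have hsep : Algebra.IsSeparable (ZMod p) (ResidueField 𝒪) := inferInstance
  exact kills_dualTwist_of_twRep (two_ne_zero_of_hyp h) Finset.subset_union_left
    (rhoGL ρbar b0) (cycloChar p) (det_rhoGL h b0) M mat hinj htr hsurj heq' hK

end Fermat.Agent.S56.TW.KillFinal
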