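/-
S56, brick TW: the level of `ρbar` in the vocabulary of `S55/Abs` (level families).

* `exists_isUnramifiedOutside_ker` : a homomorphism `f` of finite level from `G_ℚ` which is
  trivial on the inertia groups at all primes outside `S₀` has kernel `Gal(ℚ̄/F)` with `F` finite
  and unramified outside `S₀`;
* `exists_globalSet_le_ker` : hence `f` is trivial on a member of `globalLevel S₀`;
* `exists_globalSet_rho`, `exists_globalSet_rhoGL` : the instance `ρbar` under `Contract.Hyp`,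
  for `S₀ ⊇ S`;
* `isDisc_of_rho`, `isDisc_of_realisation` : a representation on which `ker ρbar` acts trivially
  (e.g. any model of `ad⁰`, `ad⁰(1)` with a matrix realisation) is discrete of level `S₀`;
* `exists_isTWSet_kills_of_realisation` : the exit `TW/Exit.exists_isTWSet_kills` without the
  hypothesis `IsDisc`.
-/
import Mathlib
import Fermat.Agent.S56.TW.Exit

set_option autoImplicit false

namespace Fermat.Agent.S56.TW.Level

open Polynomial IsLocalRing Matrix groupCohomology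
open Fermat.Agent.S56.Contract Fermat.Agent.S56.TW.RhoHyp Fermat.Agent.S55.Abs
open Fermat.Agent.S56.GW.KillClass

local notation "Qb" => AlgebraicClosure ℚ

/-- A homomorphism of finite level which is trivial on inertia outside `S₀`: its kernel is the
fixer of a finite extension unramified outside `S₀`. -/
theorem exists_isUnramifiedOutside_ker {M : Type} [MulOneClass M] (f : GQ →* M)
    (hf : GaloisFactorsThroughFiniteLevel f) (S₀ : Finset Nat.Primes)
    (hunr : ∀ q : Nat.Primes, q ∉ S₀ → ∀ A : ValuationSubring Qb, A.LiesOverPrime (q : ℕ) →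
      ∀ σ ∈ A.inertiaSubgroupIn ℚ, f σ = 1) :
    ∃ F : IntermediateField ℚ Qb, F.IsUnramifiedOutside S₀ ∧ F.fixingSubgroup = f.ker := by
  obtain ⟨L, hL, hLf⟩ := hf
  have hA : Algebra.IsAlgebraic ℚ Qb := AlgebraicClosure.isAlgebraic ℚ
  have hC : IsAlgClosure ℚ Qb := ⟨inferInstance, inferInstance⟩
  have hG : IsGalois ℚ Qb := IsAlgClosure.isGalois ℚ Qb
  have hle : L.fixingSubgroup ≤ f.ker := fun σ hσ =>
    MonoidHom.mem_ker.2 (hLf σ ((IntermediateField.mem_fixingSubgroup_iff L σ).1 hσ))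
  have hopen : IsOpen (f.ker : Set GQ) := Subgroup.isOpen_mono hle L.fixingSubgroup_isOpen
  have hclosed : IsClosed (f.ker : Set GQ) := Subgroup.isClosed_of_isOpen _ hopen
  have hfix : (IntermediateField.fixedField f.ker).fixingSubgroup = f.ker :=
    InfiniteGalois.fixingSubgroup_fixedField (⟨f.ker, hclosed⟩ : ClosedSubgroup GQ)
  have hFL : IntermediateField.fixedField f.ker ≤ L := by
    intro x hx
    rw [← InfiniteGalois.fixedField_fixingSubgroup L]
    rw [IntermediateField.mem_fixedField_iff] at hx ⊢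
    exact fun σ hσ => hx σ (hle hσ)
  refine ⟨IntermediateField.fixedField f.ker, ⟨?_, fun q hq A hA σ hσ => ?_⟩, hfix⟩
  · exact FiniteDimensional.of_injective (IntermediateField.inclusion hFL).toLinearMap
      (IntermediateField.inclusion_injective hFL)
  · rw [hfix]
    exact MonoidHom.mem_ker.2 (hunr q hq A hA σ hσ)

/-- A homomorphism of finite level which is trivial on inertia outside `S₀` is trivial on a
member of the level family `globalLevel S₀`. -/
theorem exists_globalSet_le_ker {M : Type} [MulOneClass M] (f : GQ →* M)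
    (hf : GaloisFactorsThroughFiniteLevel f) (S₀ : Finset Nat.Primes)
    (hunr : ∀ q : Nat.Primes, q ∉ S₀ → ∀ A : ValuationSubring Qb, A.LiesOverPrime (q : ℕ) →
      ∀ σ ∈ A.inertiaSubgroupIn ℚ, f σ = 1) :
    ∃ U ∈ (globalLevel S₀).sets, ∀ s ∈ U, f s = 1 := by
  obtain ⟨F, hF, hFk⟩ := exists_isUnramifiedOutside_ker f hf S₀ hunr
  exact ⟨F.fixingSubgroup, ⟨F, hF, rfl⟩, fun s hs => MonoidHom.mem_ker.1 (hFk ▸ hs)⟩

variable {𝒪 : Type} [CommRing 𝒪] [IsLocalRing 𝒪] {p : ℕ}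
  {ρbar : ResidualGaloisRep (ResidueField 𝒪)} {S Smin : Finset ℕ}

/-- Under the frozen hypotheses of S56, `ρbar` is trivial on a member of `globalLevel S₀` for
every finite set of primes `S₀ ⊇ S`. -/
theorem exists_globalSet_rhoGL (h : Hyp 𝒪 p ρbar S Smin)
    (b0 : Module.Basis (Fin 2) (ResidueField 𝒪) ρbar.V)
    (S₀ : Finset Nat.Primes) (hS : ∀ q (hq : q.Prime), q ∈ S → (⟨q, hq⟩ : Nat.Primes) ∈ S₀) :
    ∃ U ∈ (globalLevel S₀).sets, ∀ s ∈ U, rhoGL ρbar b0 s = 1 := by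
  refine exists_globalSet_le_ker (rhoGL ρbar b0) (finiteLevel_rhoGL ρbar b0) S₀
    fun q hq A hA σ hσ => ?_
  have hqS : (q : ℕ) ∉ S := fun hqS => hq (hS q q.2 hqS)
  have h1 : ρbar.ρ σ = 1 :=
    Fermat.Agent.S56.TW.Cheb.unramified_of_hyp h q q.2 hqS A hA σ hσ
  apply Units.ext
  rw [rhoGL_val, h1]
  exact LinearMap.toMatrix_one b0

/-- The same for `ρbar.ρ` itself. -/
theorem exists_globalSet_rho (h : Hyp 𝒪 p ρbar S Smin)
    (S₀ : Finset Nat.Primes) (hS : ∀ q (hq : q.Prime), q ∈ S → (⟨q, hq⟩ : Nat.Primes) ∈ S₀) :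
    ∃ U ∈ (globalLevel S₀).sets, ∀ s ∈ U, ρbar.ρ s = 1 := by
  have : Module.Finite (ResidueField 𝒪) ρbar.V :=
    Module.finite_of_finrank_pos (by rw [ρbar.finrank_eq]; norm_num)
  let b0 : Module.Basis (Fin 2) (ResidueField 𝒪) ρbar.V :=
    Module.finBasisOfFinrankEq (ResidueField 𝒪) ρbar.V ρbar.finrank_eq
  obtain ⟨U, hU, hU1⟩ := exists_globalSet_rhoGL h b0 S₀ hS
  refine ⟨U, hU, fun s hs => ?_⟩
  have h1 := congrArg Units.val (hU1 s hs)
  rw [rhoGL_val] at h1
  apply (LinearMap.toMatrix b0 b0).injective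
  rw [h1]
  exact (LinearMap.toMatrix_one b0).symm

/-- A representation on which the kernel of `ρbar` acts trivially is discrete of level `S₀`. -/
theorem isDisc_of_rho (h : Hyp 𝒪 p ρbar S Smin)
    (S₀ : Finset Nat.Primes) (hS : ∀ q (hq : q.Prime), q ∈ S → (⟨q, hq⟩ : Nat.Primes) ∈ S₀)
    {F : Type} [Field F] (N : Rep.{0} F GQ)
    (hN : ∀ s : GQ, ρbar.ρ s = 1 → ∀ m : N, N.ρ s m = m) : IsDisc (globalLevel S₀) N := by
  obtain ⟨U, hU, hU1⟩ := exists_globalSet_rho h S₀ hS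
  exact ⟨U, hU, fun s hs m => hN s (hU1 s hs) m⟩

/-- A representation with an injective matrix realisation intertwining the action with
`tw ∘ rhoGL ρbar b0` is discrete of level `S₀`. -/
theorem isDisc_of_realisation (h : Hyp 𝒪 p ρbar S Smin)
    (b0 : Module.Basis (Fin 2) (ResidueField 𝒪) ρbar.V)
    (S₀ : Finset Nat.Primes) (hS : ∀ q (hq : q.Prime), q ∈ S → (⟨q, hq⟩ : Nat.Primes) ∈ S₀)
    {F : Type} [Field F] (N : Rep.{0} F GQ)
    (ι : N →+ Matrix (Fin 2) (Fin 2) (ResidueField 𝒪)) (hι : Function.Injective ι)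
    (hιρ : ∀ σ m, ι (N.ρ σ m) = Fermat.Agent.S56.G.tw (rhoGL ρbar b0 σ) (ι m)) :
    IsDisc (globalLevel S₀) N := by
  obtain ⟨U, hU, hU1⟩ := exists_globalSet_rhoGL h b0 S₀ hS
  refine ⟨U, hU, fun s hs m => hι ?_⟩
  rw [hιρ, hU1 s hs, Fermat.Agent.S56.TW.Kill.tw_one_apply]

/-- **Taylor-Wiles sets killing `H¹(level S₀, N)`**, `N` a matrix model of `ad⁰(1)`; the
discreteness of `N` is proved, not assumed. -/
theorem exists_isTWSet_kills_of_realisation [Fact p.Prime] (h : Hyp 𝒪 p ρbar S Smin)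
    (b0 : Module.Basis (Fin 2) (ResidueField 𝒪) ρbar.V)
    (S₀ : Finset Nat.Primes) (hS : ∀ q (hq : q.Prime), q ∈ S → (⟨q, hq⟩ : Nat.Primes) ∈ S₀)
    {F : Type} [Field F] (N : Rep.{0} F GQ)
    (ι : N →+ Matrix (Fin 2) (Fin 2) (ResidueField 𝒪)) (hι : Function.Injective ι)
    (hιρ : ∀ σ m, ι (N.ρ σ m) = Fermat.Agent.S56.G.tw (rhoGL ρbar b0 σ) (ι m))
    (hιtr : ∀ m, (ι m).trace = 0)
    (hιsurj : ∀ Y : Matrix (Fin 2) (Fin 2) (ResidueField 𝒪), Y.trace = 0 → ∃ m, ι m = Y)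
    [Finite (Fermat.Agent.S55.Abs.H1 (globalLevel S₀) N)] :
    ∃ r : ℕ, ∀ n : ℕ, ∃ qv : Fin r → Nat.Primes,
      IsTWSet p ρbar S n (fun i => (qv i : ℕ)) ∧ (∀ i, qv i ∉ S₀) ∧
      Kills S₀ (S₀ ∪ Finset.univ.image qv) Finset.subset_union_left N := by
  have hpos : 0 < Nat.card (Fermat.Agent.S55.Abs.H1 (globalLevel S₀) N) := Nat.card_pos
  refine ⟨Nat.card (Fermat.Agent.S55.Abs.H1 (globalLevel S₀) N) - 1, fun n => ?_⟩
  exact Fermat.Agent.S56.TW.Exit.exists_isTWSet_kills h b0 S₀ hS N ι hι hιρ hιtr hιsurj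
    (isDisc_of_realisation h b0 S₀ hS N ι hι hιρ) (by omega) n

end Fermat.Agent.S56.TW.Level
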